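import Mathlib
import Fermat.Agent.Lib.CuspFormGamma0

set_option autoImplicit false

open UpperHalfPlane ModularFormClass
open scoped MatrixGroups

namespace Fermat.Agent.S07

/-- `Γ₀(1)` is everything. -/
theorem index_Gamma0_one : (CongruenceSubgroup.Gamma0 1).index = 1 := by
  rw [Subgroup.index_eq_one]
  ext A
  simp only [Subgroup.mem_top, iff_true]
  rw [CongruenceSubgroup.Gamma0_mem]
  exact Subsingleton.elim _ _

/-- The first column mod 2 of a matrix in `SL(2, ℤ)`. -/
def firstColMod2 (A : SL(2, ℤ)) : ZMod 2 × ZMod 2 :=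
  ((A 0 0 : ZMod 2), (A 1 0 : ZMod 2))

theorem firstColMod2_eq_imp (A B : SL(2, ℤ)) (h : firstColMod2 A = firstColMod2 B) :
    A⁻¹ * B ∈ CongruenceSubgroup.Gamma0 2 := by
  rw [CongruenceSubgroup.Gamma0_mem]
  simp only [firstColMod2, Prod.mk.injEq] at h
  obtain ⟨h0, h1⟩ := h
  rw [Matrix.SpecialLinearGroup.coe_mul, Matrix.mul_apply, Fin.sum_univ_two,
    Matrix.SpecialLinearGroup.SL2_inv_expl]
  simp only [Matrix.cons_val', Matrix.cons_val_zero, Matrix.cons_val_one,
    Matrix.cons_val_fin_one]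
  push_cast
  rw [← h0, ← h1]
  ring

theorem index_Gamma0_two_le : (CongruenceSubgroup.Gamma0 2).index ≤ 4 := by
  classical
  rw [Subgroup.index]
  let φ : SL(2, ℤ) ⧸ CongruenceSubgroup.Gamma0 2 → ZMod 2 × ZMod 2 :=
    fun q => firstColMod2 (Quotient.out q)
  have hφ : Function.Injective φ := by
    intro q₁ q₂ h
    have := firstColMod2_eq_imp _ _ h
    rw [← QuotientGroup.eq] at this
    simpa using this
  calc Nat.card (SL(2, ℤ) ⧸ CongruenceSubgroup.Gamma0 2)
      ≤ Nat.card (ZMod 2 × ZMod 2) := Nat.card_le_card_of_injective φ hφ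
    _ = 4 := by simp

end Fermat.Agent.S07
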